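import Fermat.Agent.S18.H454.D2Core
import Fermat.Agent.S18.Spec
import Fermat.Agent.S28.H988.Degree
import Fermat.Prelude.Def_AlgebraicCurve_Correspondence

/-!
# S18 node D2 (helper454): transfer `CORE(M) → CORE(N)`

* `coreStatement_descend` : for `N ∣ M` with `[F_M : F_N]` finite and prime to `m ≠ 0`,
  `CoreStatement M A m → CoreStatement N A m`.
* `coreStatement_of_mul_prime` : the case `M = N * p`, `p` prime, `(p + 1)` resp. `p` prime to `m`.
* `node_d2` : the skeleton node (`levelM N ℓ` written out).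
-/

set_option autoImplicit false

noncomputable section

namespace Fermat.Agent.S18.H454

open ModularCurve AlgebraicCurve HahnSeries IntermediateField
open Fermat.Agent.S18

theorem modularFunctionFieldBar_mono {N M : ℕ} [NeZero N] [NeZero M] (h : N ∣ M) :
    modularFunctionFieldBar N ≤ modularFunctionFieldBar M := by
  rw [Fermat.Agent.S28.H988.modularFunctionFieldBar_eq_fullC,
    Fermat.Agent.S28.H988.modularFunctionFieldBar_eq_fullC]
  exact full_degeneracyC_le _ h

section Abstract

variable {K L : Type*} [Field K] [Field L] [Algebra K L]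

/-- The inclusion of intermediate fields of finite relative degree is integral. -/
theorem inclusion_isIntegral {A B : IntermediateField K L} (h : A ≤ B)
    (hfin : A.relfinrank B ≠ 0) : (IntermediateField.inclusion h).toRingHom.IsIntegral := by
  intro x
  have hfr : Module.finrank A (extendScalars h) ≠ 0 := by
    rwa [← relfinrank_eq_finrank_of_le h]
  have : FiniteDimensional A (extendScalars h) :=
    Module.finite_of_finrank_pos (Nat.pos_of_ne_zero hfr)
  have hx : IsIntegral A (⟨x.1, x.2⟩ : extendScalars h) := IsIntegral.of_finite A _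
  obtain ⟨P, hP, hP0⟩ := hx
  refine ⟨P, hP, ?_⟩
  apply Subtype.val_injective
  have h1 := congrArg (Subtype.val) hP0
  rw [Polynomial.eval₂_eq_sum_range] at h1 ⊢
  simp only [ZeroMemClass.coe_zero] at h1 ⊢
  rw [← h1]
  rw [AddSubmonoidClass.coe_finsetSum, AddSubmonoidClass.coe_finsetSum]
  rfl

/-- Kummer descent for intermediate fields. -/
theorem exists_pow_eq_of_le {A B : IntermediateField K L} (h : A ≤ B) {m : ℕ} (hm : m ≠ 0)
    (hcop : Nat.Coprime (A.relfinrank B) m) {u : A} (hu : u ≠ 0) {y : B}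
    (hy : (y : L) ^ m = (u : L)) : ∃ y' : A, y' ^ m = u := by
  rw [relfinrank_eq_finrank_of_le h] at hcop
  refine exists_pow_eq_of_coprime_finrank (F := extendScalars h) hm hcop hu
    (y := ⟨y.1, y.2⟩) ?_
  apply Subtype.ext
  exact hy

end Abstract

section Transfer

variable {N M : ℕ} [NeZero N] [NeZero M]

theorem toF_ne_zero {A : ValuationSubring Qb} {N : ℕ} {U : LaurentSeries A} (hU : IsInt A N U) :
    toF hU ≠ 0 := by
  intro h
  have h1 : coeffMap A.subtype U = 0 := congrArg Subtype.val h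
  have hU0 : U = 0 := by
    ext n
    have := congrArg (fun V : LaurentSeries Qb => V.coeff n) h1
    simp only [coeffMap_coeff, HahnSeries.coeff_zero] at this
    simpa using this
  apply hU.2.2
  rw [hU0, map_zero]

/-- **D2, general form.** -/
theorem coreStatement_descend (hNM : N ∣ M) (A : ValuationSubring Qb) {m : ℕ} (hm : m ≠ 0)
    (hfin : (modularFunctionFieldBar N).relfinrank (modularFunctionFieldBar M) ≠ 0)
    (hcop : Nat.Coprime ((modularFunctionFieldBar N).relfinrank (modularFunctionFieldBar M)) m) :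
    CoreStatement M A m → CoreStatement N A m := by
  intro hcore U₁ U₂ h₁ h₂ hred hdiv
  have hle := modularFunctionFieldBar_mono hNM
  have hlek : modularFunctionFieldFullC (IsLocalRing.ResidueField A) N
      ≤ modularFunctionFieldFullC (IsLocalRing.ResidueField A) M := full_degeneracyC_le _ hNM
  have h₁' : IsInt A M U₁ := ⟨hle h₁.1, hlek h₁.2.1, h₁.2.2⟩
  have h₂' : IsInt A M U₂ := ⟨hle h₂.1, hlek h₂.2.1, h₂.2.2⟩
  set φ := IntermediateField.inclusion hle with hφdef
  have hφ : φ.toRingHom.IsIntegral := inclusion_isIntegral hle hfin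
  have hφ1 : φ (toF h₁) = toF h₁' := rfl
  have hφ2 : φ (toF h₂) = toF h₂' := rfl
  obtain ⟨c, y, hc, hy, hcy⟩ := hcore U₁ U₂ h₁' h₂' hred (by
    intro w
    rw [← hφ1, ← hφ2, Place.ord_restrictAlong φ hφ, Place.ord_restrictAlong φ hφ, ← mul_sub]
    exact Dvd.dvd.mul_left (hdiv _) _)
  -- an `m`-th root of `c`
  obtain ⟨c₁, hc₁⟩ := IsAlgClosed.exists_pow_nat_eq c (Nat.pos_of_ne_zero hm)
  have hf₂ : toF h₂ ≠ 0 := toF_ne_zero h₂
  have hf₁ : toF h₁ ≠ 0 := toF_ne_zero h₁
  have hu : toF h₁ / toF h₂ ≠ 0 := div_ne_zero hf₁ hf₂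
  have hf₂' : toF h₂' ≠ 0 := toF_ne_zero h₂'
  have hyM : (algebraMap Qb (modularFunctionFieldBar M) c₁ * y) ^ m = toF h₁' / toF h₂' := by
    rw [mul_pow, ← map_pow, hc₁, eq_div_iff hf₂']
    exact hcy.symm
  obtain ⟨y', hy'⟩ := exists_pow_eq_of_le hle hm hcop hu
    (y := algebraMap Qb (modularFunctionFieldBar M) c₁ * y) (by
      have h1 := congrArg Subtype.val hyM
      rw [IntermediateField.coe_div]
      rw [IntermediateField.coe_pow, IntermediateField.coe_div] at h1
      exact h1)
  refine ⟨1, y', one_ne_zero, ?_, ?_⟩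
  · rintro rfl
    rw [zero_pow hm] at hy'
    exact hu hy'.symm
  · rw [map_one, one_mul, hy', div_mul_cancel₀ _ hf₂]

end Transfer

section Nodes

/-- **D2 for `M = N p`**, `p ∤ N` prime: the degree is `p + 1`. -/
theorem coreStatement_of_mul_prime (N p : ℕ) [NeZero N] (hp : p.Prime) (hpN : ¬ p ∣ N)
    (A : ValuationSubring Qb) {m : ℕ} (hm : m ≠ 0) (hcop : Nat.Coprime (p + 1) m) :
    CoreStatement (N * p) A m → CoreStatement N A m := by
  have : NeZero (N * p) := ⟨Nat.mul_ne_zero (NeZero.ne N) hp.ne_zero⟩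
  have hdeg := Fermat.Agent.S28.H988.relfinrank_bar_mul_prime N p (NeZero.ne N) hp
  rw [if_neg hpN] at hdeg
  refine coreStatement_descend (Dvd.intro p rfl) A hm ?_ ?_
  · rw [hdeg]
    omega
  · rw [hdeg]
    exact hcop

/-- **NODE D2** of the S18 skeleton (`levelM N ℓ` written out). -/
theorem node_d2 (N : ℕ) [NeZero N] {ℓ : ℕ} [Fact ℓ.Prime] (_hℓN : ¬ ℓ ∣ N)
    (A : ValuationSubring Qb) (_hA : A.LiesOverPrime ℓ) (m : ℕ) (hm : ¬ ℓ ∣ m) :
    CoreStatement (if ℓ = 3 then Nat.lcm N 2 else if ℓ = 2 then Nat.lcm N 3 else N) A m →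
      CoreStatement N A m := by
  have hm0 : m ≠ 0 := by
    rintro rfl
    exact hm (dvd_zero ℓ)
  split_ifs with h3 h2
  · subst h3
    by_cases h2N : 2 ∣ N
    · rw [Nat.lcm_eq_left h2N]
      exact id
    · have hcopN : Nat.Coprime N 2 :=
        ((Nat.Prime.coprime_iff_not_dvd Nat.prime_two).mpr h2N).symm
      rw [hcopN.lcm_eq_mul]
      exact coreStatement_of_mul_prime N 2 Nat.prime_two h2N A hm0
        ((Nat.Prime.coprime_iff_not_dvd Nat.prime_three).mpr hm)
  · subst h2
    by_cases h3N : 3 ∣ N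
    · rw [Nat.lcm_eq_left h3N]
      exact id
    · have hcopN : Nat.Coprime N 3 :=
        ((Nat.Prime.coprime_iff_not_dvd Nat.prime_three).mpr h3N).symm
      rw [hcopN.lcm_eq_mul]
      have h2m : Nat.Coprime 2 m := (Nat.Prime.coprime_iff_not_dvd Nat.prime_two).mpr hm
      exact coreStatement_of_mul_prime N 3 Nat.prime_three h3N A hm0
        (by
          have : Nat.Coprime (2 ^ 2) m := Nat.Coprime.pow_left 2 h2m
          simpa using this)
  · exact id

end Nodes

end Fermat.Agent.S18.H454

end
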