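import Mathlib

/-!
# S18 node D2 (helper454), part 1: Kummer descent through an extension of coprime degree

If `F / E` is a field extension of finite degree prime to `m ≠ 0` and `u ∈ E^×` is an `m`-th
power in `F`, then `u` is an `m`-th power in `E` (norm argument; no roots of unity needed).
-/

set_option autoImplicit false

namespace Fermat.Agent.S18.H454

theorem exists_pow_eq_of_coprime_finrank {E F : Type*} [Field E] [Field F] [Algebra E F]
    {m : ℕ} (hm : m ≠ 0) (hcop : Nat.Coprime (Module.finrank E F) m) {u : E} (hu : u ≠ 0)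
    {y : F} (hy : y ^ m = algebraMap E F u) : ∃ y' : E, y' ^ m = u := by
  set d := Module.finrank E F with hd
  have hN : (Algebra.norm E y) ^ m = u ^ d := by
    rw [← map_pow, hy, Algebra.norm_algebraMap]
  have hN0 : Algebra.norm E y ≠ 0 := by
    intro h
    rw [h, zero_pow hm] at hN
    exact pow_ne_zero _ hu hN.symm
  obtain ⟨a, b, hab⟩ := Nat.Coprime.isCoprime hcop
  refine ⟨(Algebra.norm E y) ^ a * u ^ b, ?_⟩
  have h1 : ((Algebra.norm E y) ^ a) ^ m = u ^ (a * (d : ℤ)) := by
    rw [← zpow_natCast, ← zpow_mul, mul_comm a (m : ℤ), zpow_mul, zpow_natCast, hN,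
      ← zpow_natCast, ← zpow_mul, mul_comm]
  have h2 : (u ^ b) ^ m = u ^ (b * (m : ℤ)) := by
    rw [← zpow_natCast, ← zpow_mul]
  rw [mul_pow, h1, h2, ← zpow_add₀ hu, hab, zpow_one]

end Fermat.Agent.S18.H454
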