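import Fermat.Agent.S18.H754.KummerSpec

/-!
# S18, Route K, piece P6 (helper454): Kummer idempotents modulo `ϖ O'`, part A

Idempotency, orthogonality and the partition of unity
(first three clauses of `Fermat.Agent.S18.H754.KummerIdemStatement`).

Key identity (any commutative ring): with `G(x) = ∑_{a<p} x^a`,
`G(x) · ∑_{b<p} r^b x^b = (∑_{b<p} r^b) · G(x) + (x^p - 1) · ∑_{b<p} r^b ∑_{j<b} x^j`.
-/

set_option autoImplicit false

noncomputable section

namespace Fermat.Agent.S18.H454

open Polynomial Finset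
open Fermat.Agent.S18.H754

section Identity

variable {R : Type*} [CommRing R]

theorem geom_mul_pow (x : R) (p b : ℕ) :
    (∑ a ∈ range p, x ^ a) * x ^ b
      = (∑ a ∈ range p, x ^ a) + (x ^ p - 1) * ∑ j ∈ range b, x ^ j := by
  have h1 := geom_sum_mul x p
  have h2 := geom_sum_mul x b
  linear_combination (-(∑ a ∈ range p, x ^ a)) * h2 + (∑ j ∈ range b, x ^ j) * h1

theorem geom_mul_twisted (x r : R) (p : ℕ) :
    (∑ a ∈ range p, x ^ a) * (∑ b ∈ range p, r ^ b * x ^ b)
      = (∑ b ∈ range p, r ^ b) * (∑ a ∈ range p, x ^ a)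
        + (x ^ p - 1) * ∑ b ∈ range p, r ^ b * ∑ j ∈ range b, x ^ j := by
  rw [Finset.mul_sum, Finset.sum_mul, Finset.mul_sum, ← Finset.sum_add_distrib]
  refine Finset.sum_congr rfl fun b _ => ?_
  have := geom_mul_pow x p b
  linear_combination r ^ b * this

end Identity

section Kummer

variable {B : Type*} [CommRing B] [IsDomain B]
  {F : Type*} [Field F] [Algebra B F] [IsFractionRing B F]
  {F' : Type*} [Field F'] [Algebra F F'] [Algebra B F'] [IsScalarTower B F F']

omit [IsDomain B] [IsFractionRing B F] in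
theorem kummerIdem_eq (p : ℕ) (η : B) (z : F') :
    kummerIdem p η z = (p : F')⁻¹ * ∑ a ∈ range p, (algebraMap B F' η * z) ^ a := by
  unfold kummerIdem
  congr 1
  refine Finset.sum_congr rfl fun a _ => ?_
  rw [mul_pow, map_pow]

omit [IsDomain B] [IsFractionRing B F] in
theorem algebraMap_mul_eq {u : F} {a s : B}
    (hu : u * algebraMap B F s = algebraMap B F a) :
    algebraMap F F' u * algebraMap B F' s = algebraMap B F' a := by
  rw [IsScalarTower.algebraMap_apply B F F' s, IsScalarTower.algebraMap_apply B F F' a,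
    ← map_mul, hu]

omit [IsDomain B] [IsFractionRing B F] in
/-- `(ι s · z)` is integral over `B` when `u · s = a`. -/
theorem isIntegral_smul_root {p : ℕ} (hp : 0 < p) {u : F} {z : F'}
    (hz : z ^ p = algebraMap F F' u) {a s : B}
    (hu : u * algebraMap B F s = algebraMap B F a) :
    IsIntegral B (algebraMap B F' s * z) := by
  apply IsIntegral.of_pow hp
  have hus := algebraMap_mul_eq (F' := F') hu
  have hsp : algebraMap B F' s ^ p = algebraMap B F' s ^ (p - 1) * algebraMap B F' s := by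
    rw [← pow_succ]
    congr 1
    omega
  have h1 : (algebraMap B F' s * z) ^ p = algebraMap B F' (s ^ (p - 1) * a) := by
    rw [mul_pow, hz, hsp, mul_assoc, mul_comm (algebraMap B F' s), hus, map_mul, map_pow]
  rw [h1]
  exact isIntegral_algebraMap

omit [IsDomain B] [IsFractionRing B F] in
/-- `ι(s)^m · θ^j` is integral for `j ≤ m`, `θ = ι η · z`. -/
theorem isIntegral_pow_mul_pow {p : ℕ} (hp : 0 < p) {u : F} {z : F'}
    (hz : z ^ p = algebraMap F F' u) {a s : B}
    (hu : u * algebraMap B F s = algebraMap B F a) (η : B) {j m : ℕ} (hjm : j ≤ m) :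
    IsIntegral B (algebraMap B F' s ^ m * (algebraMap B F' η * z) ^ j) := by
  have h1 : algebraMap B F' s ^ m * (algebraMap B F' η * z) ^ j
      = algebraMap B F' (s ^ (m - j) * η ^ j) * (algebraMap B F' s * z) ^ j := by
    rw [map_mul, map_pow, map_pow, mul_pow, mul_pow]
    have : algebraMap B F' s ^ m = algebraMap B F' s ^ (m - j) * algebraMap B F' s ^ j := by
      rw [← pow_add]
      congr 1
      omega
    rw [this]
    ring
  rw [h1]
  exact IsIntegral.mul isIntegral_algebraMap ((isIntegral_smul_root hp hz hu).pow j)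

omit [IsDomain B] [IsFractionRing B F] in
/-- The basic membership lemma: `p⁻² (u - 1) ∑_{b<p} ρ^b ∑_{j<b} θ^j ∈ ϖ O'`. -/
theorem inPiO_kummer_error {ϖ : B} (hϖ : Prime ϖ) {p : ℕ} (hp : 0 < p) (hpu : IsUnit (p : B))
    {u : F} {z : F'} (hz : z ^ p = algebraMap F F' u) (hu : OneModPi ϖ u) (η ρ : B) :
    InPiO ϖ ((p : F')⁻¹ * (p : F')⁻¹ * ((algebraMap F F' u - 1) *
      ∑ b ∈ range p, algebraMap B F' ρ ^ b * ∑ j ∈ range b, (algebraMap B F' η * z) ^ j)) := by
  obtain ⟨a, s, hs, has, hus⟩ := hu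
  obtain ⟨d, hd⟩ := Ideal.mem_span_singleton.mp has
  obtain ⟨q, hq⟩ := hpu.exists_left_inv
  have hus' := algebraMap_mul_eq (F' := F') hus
  -- `(p : F')⁻¹ = ι q`
  have hq' : (p : F')⁻¹ = algebraMap B F' q := by
    have h1 : algebraMap B F' q * (p : F') = 1 := by
      have := congrArg (algebraMap B F') hq
      rwa [map_mul, map_natCast, map_one] at this
    exact (eq_inv_of_mul_eq_one_left h1).symm
  -- `ι s · (u - 1) = ι ϖ · ι d`
  have h2 : algebraMap B F' s * (algebraMap F F' u - 1) = algebraMap B F' ϖ * algebraMap B F' d := by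
    rw [mul_sub, mul_one, mul_comm, hus', ← map_sub, hd, map_mul]
  set K : F' := ∑ b ∈ range p, algebraMap B F' ρ ^ b * ∑ j ∈ range b, (algebraMap B F' η * z) ^ j
    with hK
  have hKint : IsIntegral B (algebraMap B F' s ^ p * K) := by
    rw [hK, Finset.mul_sum]
    refine IsIntegral.sum _ fun b hb => ?_
    have hb' : b < p := Finset.mem_range.mp hb
    rw [mul_left_comm, Finset.mul_sum, ← map_pow]
    refine IsIntegral.mul isIntegral_algebraMap (IsIntegral.sum _ fun j hj => ?_)
    have hj' : j < b := Finset.mem_range.mp hj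
    exact isIntegral_pow_mul_pow hp hz hus η (by omega)
  refine ⟨s ^ (p + 1), ?_, algebraMap B F' (q * q * d) * (algebraMap B F' s ^ p * K), ?_, ?_⟩
  · intro hmem
    exact hs (Ideal.mem_span_singleton.mpr (hϖ.dvd_of_dvd_pow (Ideal.mem_span_singleton.mp hmem)))
  · exact IsIntegral.mul isIntegral_algebraMap hKint
  · rw [hq', map_pow, pow_succ, map_mul, map_mul]
    linear_combination (algebraMap B F' q * algebraMap B F' q * algebraMap B F' s ^ p * K) * h2

omit [IsDomain B] [IsFractionRing B F] in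
theorem natCast_ne_zero_of_isUnit {p : ℕ} (hpu : IsUnit (p : B)) : (p : F') ≠ 0 := by
  have h := hpu.map (algebraMap B F')
  rw [map_natCast] at h
  exact h.ne_zero

omit [IsDomain B] [IsFractionRing B F] [Algebra B F] [IsScalarTower B F F'] in
theorem theta_pow {p : ℕ} {u : F} {z : F'} (hz : z ^ p = algebraMap F F' u) {η : B}
    (hη : η ^ p = 1) : (algebraMap B F' η * z) ^ p = algebraMap F F' u := by
  rw [mul_pow, ← map_pow, hη, map_one, one_mul, hz]

omit [IsDomain B] [IsFractionRing B F] in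
/-- Idempotency modulo `ϖ O'`. -/
theorem inPiO_kummerIdem_sq {ϖ : B} (hϖ : Prime ϖ) {p : ℕ} (hp : 0 < p) (hpu : IsUnit (p : B))
    {u : F} {z : F'} (hz : z ^ p = algebraMap F F' u) (hu : OneModPi ϖ u) {η : B}
    (hη : η ^ p = 1) :
    InPiO ϖ (kummerIdem p η z * kummerIdem p η z - kummerIdem p η z) := by
  have hp0 : (p : F') ≠ 0 := natCast_ne_zero_of_isUnit hpu
  have key := inPiO_kummer_error (F' := F') hϖ hp hpu hz hu η 1
  have hid := geom_mul_twisted (algebraMap B F' η * z) (1 : F') p
  simp only [one_pow, one_mul, Finset.sum_const, Finset.card_range, nsmul_eq_mul, mul_one]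
    at hid
  rw [theta_pow hz hη] at hid
  convert key using 1
  rw [kummerIdem_eq]
  simp only [map_one, one_pow, one_mul]
  field_simp
  linear_combination hid

omit [IsFractionRing B F] in
/-- Orthogonality modulo `ϖ O'`. -/
theorem inPiO_kummerIdem_mul {ϖ : B} (hϖ : Prime ϖ) {p : ℕ} (hp : 0 < p) (hpu : IsUnit (p : B))
    {u : F} {z : F'} (hz : z ^ p = algebraMap F F' u) (hu : OneModPi ϖ u) {η η' : B}
    (hη : η ^ p = 1) (hη' : η' ^ p = 1) (hne : η ≠ η') :
    InPiO ϖ (kummerIdem p η z * kummerIdem p η' z) := by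
  have hp0 : (p : F') ≠ 0 := natCast_ne_zero_of_isUnit hpu
  -- `ρ = η' / η`
  set ρ : B := η' * η ^ (p - 1) with hρ
  have hηη : η ^ (p - 1) * η = 1 := by
    rw [← pow_succ, show p - 1 + 1 = p by omega, hη]
  have hρη : ρ * η = η' := by
    rw [hρ, mul_assoc, hηη, mul_one]
  have hρp : ρ ^ p = 1 := by
    rw [hρ, mul_pow, hη', one_mul, ← pow_mul, mul_comm, pow_mul, hη, one_pow]
  have hρ1 : ρ ≠ 1 := by
    intro h
    rw [h, one_mul] at hρη
    exact hne hρη
  have hsum : ∑ b ∈ range p, ρ ^ b = 0 := by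
    have h := mul_geom_sum ρ p
    rw [hρp, sub_self] at h
    rcases mul_eq_zero.mp h with h | h
    · exact absurd (sub_eq_zero.mp h) hρ1
    · exact h
  have key := inPiO_kummer_error (F' := F') hϖ hp hpu hz hu η ρ
  have hid := geom_mul_twisted (algebraMap B F' η * z) (algebraMap B F' ρ) p
  have hsum' : ∑ b ∈ range p, algebraMap B F' ρ ^ b = 0 := by
    rw [← map_zero (algebraMap B F'), ← hsum, map_sum]
    exact Finset.sum_congr rfl fun b _ => (map_pow _ _ _).symm
  rw [hsum', zero_mul, zero_add, theta_pow hz hη] at hid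
  have hθ' : ∀ b : ℕ, algebraMap B F' ρ ^ b * (algebraMap B F' η * z) ^ b
      = (algebraMap B F' η' * z) ^ b := by
    intro b
    rw [← mul_pow, ← mul_assoc, ← map_mul, hρη]
  simp only [hθ'] at hid
  convert key using 1
  rw [kummerIdem_eq, kummerIdem_eq]
  rw [← hid]
  ring

omit [IsFractionRing B F] in
/-- Partition of unity. -/
theorem sum_kummerIdem_eq_one {p : ℕ} (hp : p.Prime) (hpu : IsUnit (p : B)) (z : F') {ζ : B}
    (hζ : IsPrimitiveRoot ζ p) :
    ∑ i ∈ range p, kummerIdem p (ζ ^ i) z = (1 : F') := by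
  have hp0 : (p : F') ≠ 0 := natCast_ne_zero_of_isUnit hpu
  unfold kummerIdem
  rw [← Finset.mul_sum, Finset.sum_comm]
  have h0 : ∀ a ∈ range p, ∑ i ∈ range p, algebraMap B F' ((ζ ^ i) ^ a) * z ^ a
      = if a = 0 then (p : F') else 0 := by
    intro a ha
    have ha' : a < p := Finset.mem_range.mp ha
    rw [← Finset.sum_mul]
    split_ifs with h0
    · subst h0
      simp
    · have hcop : Nat.Coprime a p :=
        ((Nat.Prime.coprime_iff_not_dvd hp).mpr
          (Nat.not_dvd_of_pos_of_lt (Nat.pos_of_ne_zero h0) ha')).symm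
      have hprim : IsPrimitiveRoot (ζ ^ a) p := hζ.pow_of_coprime a hcop
      have hgeom := hprim.geom_sum_eq_zero hp.one_lt
      have : ∑ i ∈ range p, algebraMap B F' ((ζ ^ i) ^ a) = 0 := by
        rw [← map_sum, ← map_zero (algebraMap B F'), ← hgeom]
        congr 1
        refine Finset.sum_congr rfl fun i _ => ?_
        rw [← pow_mul, ← pow_mul, mul_comm]
      rw [this, zero_mul]
  rw [Finset.sum_congr rfl h0, Finset.sum_ite_eq' (range p) 0 (fun _ => (p : F')),
    if_pos (Finset.mem_range.mpr hp.pos), inv_mul_cancel₀ hp0]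

end Kummer

end Fermat.Agent.S18.H454

end
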