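import Fermat.Agent.S18.H454.KummerIdemA

/-!
# S18, Route K, piece P6 (helper454): Kummer idempotents modulo `ϖ O'`, part B

Non-vanishing of the Kummer idempotents modulo `ϖ O'` (trace argument) and the full
`Fermat.Agent.S18.H754.KummerIdemStatement`.
-/

set_option autoImplicit false

noncomputable section

namespace Fermat.Agent.S18.H454

open Polynomial Finset IntermediateField
open Fermat.Agent.S18.H754

section Trace

variable {F : Type*} [Field F]

/-- `u^a` is not a `p`-th power if `u` is not (`0 < a < p`). -/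
theorem pow_ne_of_forall_pow_ne {p : ℕ} (hp : p.Prime) {u : F} (hu : ∀ y : F, y ^ p ≠ u)
    {a : ℕ} (ha0 : 0 < a) (hap : a < p) : ∀ y : F, y ^ p ≠ u ^ a := by
  intro y hy
  have hu0 : u ≠ 0 := fun h => hu 0 (by rw [h, zero_pow hp.ne_zero])
  have hcop : Nat.Coprime a p :=
    ((Nat.Prime.coprime_iff_not_dvd hp).mpr (Nat.not_dvd_of_pos_of_lt ha0 hap)).symm
  obtain ⟨m, -, hm⟩ := Nat.exists_mul_mod_eq_one_of_coprime hcop hp.one_lt
  have hmn : a * m = p * (a * m / p) + 1 := by
    have := Nat.div_add_mod (a * m) p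
    omega
  set n := a * m / p with hn
  apply hu (y ^ m / u ^ n)
  have h1 : (y ^ m) ^ p = u ^ (p * n + 1) := by
    rw [← pow_mul, mul_comm m p, pow_mul, hy, ← pow_mul, hmn]
  have h2 : (u ^ n) ^ p = u ^ (p * n) := by
    rw [← pow_mul, mul_comm]
  rw [div_pow, h1, h2, pow_succ]
  field_simp

theorem nextCoeff_X_pow_sub_C' {p : ℕ} (hp : 2 ≤ p) (c : F) :
    (X ^ p - C c : F[X]).nextCoeff = 0 := by
  rw [nextCoeff_of_natDegree_pos (by rw [natDegree_X_pow_sub_C]; omega), natDegree_X_pow_sub_C,
    coeff_sub, coeff_X_pow, coeff_C, if_neg (by omega), if_neg (by omega), sub_zero]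

/-- In a finite extension `K/F` containing a `p`-th root `zK` of a non-`p`-th power `u`,
the powers `zK^a`, `0 < a < p`, have trace zero. -/
theorem trace_pow_eq_zero {p : ℕ} (hp : p.Prime) {u : F} (hu : ∀ y : F, y ^ p ≠ u)
    {K : Type*} [Field K] [Algebra F K] [FiniteDimensional F K] (zK : K)
    (hz : zK ^ p = algebraMap F K u) {a : ℕ} (ha0 : 0 < a) (hap : a < p) :
    Algebra.trace F K (zK ^ a) = 0 := by
  rw [trace_eq_finrank_mul_minpoly_nextCoeff]
  have hirr : Irreducible (X ^ p - C (u ^ a) : F[X]) :=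
    X_pow_sub_C_irreducible_of_prime hp (pow_ne_of_forall_pow_ne hp hu ha0 hap)
  have hmin : minpoly F (zK ^ a) = X ^ p - C (u ^ a) := by
    symm
    apply minpoly.eq_of_irreducible_of_monic hirr
    · rw [map_sub, map_pow, aeval_X, aeval_C, ← pow_mul, mul_comm a p, pow_mul, hz, map_pow,
        sub_self]
    · exact monic_X_pow_sub_C _ hp.ne_zero
  rw [hmin, nextCoeff_X_pow_sub_C' hp.two_le, neg_zero, mul_zero]

end Trace

section NonVanishing

variable {B : Type*} [CommRing B] [IsDomain B] [IsIntegrallyClosed B]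
  {F : Type*} [Field F] [Algebra B F] [IsFractionRing B F]
  {F' : Type*} [Field F'] [Algebra F F'] [Algebra B F'] [IsScalarTower B F F']

omit [IsDomain B] in
/-- Non-vanishing modulo `ϖ O'` (trace argument). -/
theorem not_inPiO_kummerIdem {ϖ : B} (hϖ : Prime ϖ) {p : ℕ} (hp : p.Prime)
    (hpu : IsUnit (p : B)) {u : F} {z : F'} (hz : z ^ p = algebraMap F F' u)
    (hu : ∀ y : F, y ^ p ≠ u) (η : B) :
    ¬ InPiO ϖ (kummerIdem p η z) := by
  rintro ⟨s, hs, c, hc, hsc⟩
  have hpF : (p : F) ≠ 0 := by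
    have h := hpu.map (algebraMap B F)
    rw [map_natCast] at h
    exact h.ne_zero
  have hirr : Irreducible (X ^ p - C u : F[X]) := X_pow_sub_C_irreducible_of_prime hp hu
  have hmonic : (X ^ p - C u : F[X]).Monic := monic_X_pow_sub_C _ hp.ne_zero
  have haeval : aeval z (X ^ p - C u : F[X]) = 0 := by
    rw [map_sub, map_pow, aeval_X, aeval_C, hz, sub_self]
  have hzint : IsIntegral F z := ⟨_, hmonic, haeval⟩
  have hmin : minpoly F z = X ^ p - C u :=
    (minpoly.eq_of_irreducible_of_monic hirr haeval hmonic).symm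
  have : FiniteDimensional F F⟮z⟯ := adjoin.finiteDimensional hzint
  have hfin : Module.finrank F F⟮z⟯ = p := by
    rw [adjoin.finrank hzint, hmin, natDegree_X_pow_sub_C]
  set zK : F⟮z⟯ := AdjoinSimple.gen F z with hzKdef
  have hzKcoe : (zK : F') = z := AdjoinSimple.coe_gen F z
  have hzK : zK ^ p = algebraMap F F⟮z⟯ u := by
    apply Subtype.ext
    rw [IntermediateField.coe_pow, hzKcoe, hz]
    rfl
  -- the idempotent as an element of `K = F(z)`
  set eK : F⟮z⟯ := ∑ a ∈ range p, ((p : F)⁻¹ * algebraMap B F (η ^ a)) • zK ^ a with heKdef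
  have heK : (eK : F') = kummerIdem p η z := by
    unfold kummerIdem
    have hsum : ∀ g : ℕ → F⟮z⟯, ((∑ a ∈ range p, g a : F⟮z⟯) : F')
        = ∑ a ∈ range p, ((g a : F⟮z⟯) : F') := fun g => map_sum F⟮z⟯.val g (range p)
    rw [heKdef, Finset.mul_sum, hsum]
    refine Finset.sum_congr rfl fun a _ => ?_
    rw [IntermediateField.coe_smul, IntermediateField.coe_pow, hzKcoe, Algebra.smul_def,
      map_mul, map_inv₀, map_natCast, ← IsScalarTower.algebraMap_apply B F F', mul_assoc]
  have htr : Algebra.trace F F⟮z⟯ eK = 1 := by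
    rw [heKdef, map_sum]
    rw [Finset.sum_eq_single 0]
    · have h1 : Algebra.trace F F⟮z⟯ 1 = (p : F) := by
        rw [← map_one (algebraMap F F⟮z⟯), Algebra.trace_algebraMap, hfin]
        simp
      rw [pow_zero, pow_zero, map_one, mul_one, map_smul, h1, smul_eq_mul,
        inv_mul_cancel₀ hpF]
    · intro a ha ha0
      rw [map_smul, trace_pow_eq_zero hp hu zK hzK (Nat.pos_of_ne_zero ha0)
        (Finset.mem_range.mp ha), smul_zero]
    · intro h
      exact absurd (Finset.mem_range.mpr hp.pos) h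
  -- the element `c` lives in `K`
  have hϖF : algebraMap B F ϖ ≠ 0 := by
    intro h
    exact hϖ.ne_zero ((IsFractionRing.injective B F) (h.trans (map_zero _).symm))
  set cK : F⟮z⟯ := (algebraMap B F s * (algebraMap B F ϖ)⁻¹) • eK with hcKdef
  have hcK : (cK : F') = c := by
    rw [hcKdef, IntermediateField.coe_smul, heK, Algebra.smul_def, map_mul, map_inv₀,
      ← IsScalarTower.algebraMap_apply B F F', ← IsScalarTower.algebraMap_apply B F F']
    have hϖF' : algebraMap B F' ϖ ≠ 0 := by
      rw [IsScalarTower.algebraMap_apply B F F']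
      exact (_root_.map_ne_zero _).mpr hϖF
    field_simp
    linear_combination hsc
  have hcKint : IsIntegral B cK := by
    have h1 : IsIntegral B ((F⟮z⟯.val.restrictScalars B) cK) := by
      change IsIntegral B (cK : F')
      rw [hcK]
      exact hc
    exact (isIntegral_algHom_iff (F⟮z⟯.val.restrictScalars B) Subtype.val_injective).mp h1
  have htrint : IsIntegral B (Algebra.trace F F⟮z⟯ cK) := Algebra.isIntegral_trace hcKint
  obtain ⟨t, ht⟩ := IsIntegrallyClosed.isIntegral_iff.mp htrint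
  have htrc : Algebra.trace F F⟮z⟯ cK = algebraMap B F s * (algebraMap B F ϖ)⁻¹ := by
    rw [hcKdef, map_smul, htr, smul_eq_mul, mul_one]
  have hst : algebraMap B F s = algebraMap B F (ϖ * t) := by
    rw [map_mul, ht, htrc]
    field_simp
  exact hs (Ideal.mem_span_singleton.mpr ⟨t, IsFractionRing.injective B F hst⟩)

end NonVanishing

/-- **P6**: the statement `KummerIdemStatement` of the Kummer spec. -/
theorem kummerIdemStatement : KummerIdemStatement := by
  intro B _ _ _ F _ _ _ F' _ _ _ _ ϖ hϖ p hp hpu u z hz hu h1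
  refine ⟨fun η hη => inPiO_kummerIdem_sq hϖ hp.pos hpu hz h1 hη,
    fun η η' hη hη' hne => inPiO_kummerIdem_mul hϖ hp.pos hpu hz h1 hη hη' hne,
    fun ζ hζ => sum_kummerIdem_eq_one hp hpu z hζ,
    fun η _ => not_inPiO_kummerIdem hϖ hp hpu hz hu η⟩

end Fermat.Agent.S18.H454

end
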